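import Mathlib
import Fermat.Agent.H66.ESD.GaussNorm
import Fermat.Agent.H29.ES1.Interfaces

/-!
# P-ES1, row ES1-GNF : the Gauss normal form for `F1 M` (helper57)

Generic port of `Fermat.Agent.H66.gaussNormalForm` (row 363, helper66).

* `IntGenerated F₀` : `F₀ = ℚ(S)` for a set `S` of series with integer coefficients;
* `gaussNormalFormGen` : `IntGenerated F₀ → GaussNormalFormGenStatement F₀`;
* `exists_gnfGen` : the same for ANY field `L` of characteristic `0` and ANY valuation subring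
  of `L`;
* `intGenerated_full N`, `intGenerated_F1 M` : the two instances;
* `gaussNormalForm1 : GaussNormalForm1Statement`  (row 578).
-/

set_option autoImplicit false
set_option synthInstance.maxHeartbeats 400000
set_option linter.unusedSectionVars false

open AlgebraicCurve ModularCurve

namespace Fermat.Agent.H57.ES1

noncomputable section

open Fermat.Agent.H66 Fermat.Agent.H29.ES1

/-- `F₀` is generated over `ℚ` by a set of series with integer coefficients. -/
def IntGenerated (F₀ : IntermediateField ℚ (LaurentSeries ℚ)) : Prop :=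
  ∃ S : Set (LaurentSeries ℚ), F₀ = IntermediateField.adjoin ℚ S ∧
    ∀ x ∈ S, ∃ a : LaurentSeries ℤ, coeffMap (Int.castRingHom ℚ) a = x

/-- Integer series lying in `F₀`. -/
def intRingRatGen (F₀ : IntermediateField ℚ (LaurentSeries ℚ)) : Subring (LaurentSeries ℚ) :=
  (coeffMap (Int.castRingHom ℚ)).range ⊓ F₀.toSubfield.toSubring

theorem mem_intRingRatGen_iff (F₀ : IntermediateField ℚ (LaurentSeries ℚ))
    (x : LaurentSeries ℚ) :
    x ∈ intRingRatGen F₀ ↔
      (∃ a : LaurentSeries ℤ, coeffMap (Int.castRingHom ℚ) a = x) ∧ x ∈ F₀ := Iff.rfl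

theorem gen_le_ratioSubfield {F₀ : IntermediateField ℚ (LaurentSeries ℚ)}
    (hF : IntGenerated F₀) :
    F₀.toSubfield ≤ ratioSubfield (intRingRatGen F₀) := by
  obtain ⟨S, hS, hint⟩ := hF
  have hsub : S ⊆ (F₀ : Set (LaurentSeries ℚ)) := by
    rw [hS]
    exact IntermediateField.subset_adjoin ℚ S
  have key : (IntermediateField.adjoin ℚ S).toSubfield ≤ ratioSubfield (intRingRatGen F₀) := by
    refine IntermediateField.adjoin_le_subfield ℚ _ ?_ ?_
    · rintro _ ⟨r, rfl⟩
      refine ⟨algebraMap ℚ (LaurentSeries ℚ) (r.num : ℚ), ?_,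
        algebraMap ℚ (LaurentSeries ℚ) (r.den : ℚ), ?_, ?_, ?_⟩
      · refine ⟨⟨(r.num : LaurentSeries ℤ), ?_⟩, IntermediateField.algebraMap_mem _ _⟩
        rw [map_intCast, map_intCast]
      · refine ⟨⟨(r.den : LaurentSeries ℤ), ?_⟩, IntermediateField.algebraMap_mem _ _⟩
        rw [map_natCast, map_natCast]
      · rw [Ne, map_eq_zero]
        exact_mod_cast r.den_nz
      · rw [← map_mul]
        congr 1
        exact Rat.mul_den_eq_num r
    · intro x hx
      exact mem_ratioSubfield_of_mem _ ⟨hint x hx, hsub hx⟩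
  intro x hx
  have hx' : x ∈ (IntermediateField.adjoin ℚ S).toSubfield := by
    rw [← hS]
    exact hx
  exact key hx'

/-! ### The base change `F_L` -/

variable (L : Type*) [Field L] [Algebra ℚ L]

/-- Elements of `F_L` in the `L`-span of the integer series. -/
def intRingBaseGen (F₀ : IntermediateField ℚ (LaurentSeries ℚ)) : Subring (LaurentSeries L) :=
  (intSpanAlg L).toSubring ⊓ (laurentBaseChange L F₀).toSubfield.toSubring

theorem mem_intRingBaseGen_iff (F₀ : IntermediateField ℚ (LaurentSeries ℚ))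
    (x : LaurentSeries L) :
    x ∈ intRingBaseGen L F₀ ↔ x ∈ intSpanAlg L ∧ x ∈ laurentBaseChange L F₀ := Iff.rfl

theorem baseGen_le_ratioSubfield {F₀ : IntermediateField ℚ (LaurentSeries ℚ)}
    (hF : IntGenerated F₀) :
    (laurentBaseChange L F₀).toSubfield ≤ ratioSubfield (intRingBaseGen L F₀) := by
  show (IntermediateField.adjoin L
    (⇑(coeffEmb L) '' ((F₀ : IntermediateField ℚ (LaurentSeries ℚ)) :
      Set (LaurentSeries ℚ)))).toSubfield ≤ _
  refine IntermediateField.adjoin_le_subfield L _ ?_ ?_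
  · rintro _ ⟨c, rfl⟩
    exact mem_ratioSubfield_of_mem _
      ⟨Subalgebra.algebraMap_mem _ c, IntermediateField.algebraMap_mem _ c⟩
  · rintro _ ⟨x, hx, rfl⟩
    obtain ⟨a, ⟨⟨a', rfl⟩, haF⟩, b, ⟨⟨b', rfl⟩, hbF⟩, hb0, h⟩ := gen_le_ratioSubfield hF hx
    refine ⟨coeffEmb L (coeffMap (Int.castRingHom ℚ) a'), ⟨?_, ?_⟩,
      coeffEmb L (coeffMap (Int.castRingHom ℚ) b'), ⟨?_, ?_⟩, ?_, ?_⟩
    · rw [coeffEmb_coeffMap_int]
      exact Algebra.subset_adjoin ⟨a', rfl⟩
    · exact coeffEmb_mem_laurentBaseChange L haF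
    · rw [coeffEmb_coeffMap_int]
      exact Algebra.subset_adjoin ⟨b', rfl⟩
    · exact coeffEmb_mem_laurentBaseChange L hbF
    · rw [Ne, map_eq_zero]
      exact hb0
    · rw [← map_mul, h]

variable {L}

/-- **Gauss normal form**, for any level field generated by integral series, any field `L` of
characteristic `0` and any valuation subring of `L`. -/
theorem exists_gnfGen {F₀ : IntermediateField ℚ (LaurentSeries ℚ)} (hF : IntGenerated F₀)
    (A : ValuationSubring L) {f : LaurentSeries L}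
    (hf : f ∈ laurentBaseChange L F₀) (hf0 : f ≠ 0) :
    ∃ (c : L) (a b : LaurentSeries ↥A), c ≠ 0 ∧
      vIota A a ∈ laurentBaseChange L F₀ ∧
      vIota A b ∈ laurentBaseChange L F₀ ∧
      vRho A a ≠ 0 ∧ vRho A b ≠ 0 ∧
      f * vIota A b = algebraMap L (LaurentSeries L) c * vIota A a := by
  obtain ⟨x, ⟨hxS, hxF⟩, y, ⟨hyS, hyF⟩, hy0, h⟩ := baseGen_le_ratioSubfield L hF hf
  have hx0 : x ≠ 0 := by
    rw [← h]
    exact mul_ne_zero hf0 hy0
  obtain ⟨fx, hfx⟩ := exists_finsupp_of_mem_intSpanAlg L hxS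
  obtain ⟨fy, hfy⟩ := exists_finsupp_of_mem_intSpanAlg L hyS
  obtain ⟨cx, X, hcx, hX, hxX⟩ := exists_normalisation_of_sum A fx hfx hx0
  obtain ⟨cy, Y, hcy, hY, hyY⟩ := exists_normalisation_of_sum A fy hfy hy0
  have hXF : vIota A X ∈ laurentBaseChange L F₀ := by
    have h1 : vIota A X = algebraMap L (LaurentSeries L) cx⁻¹ * x := by
      rw [hxX, ← mul_assoc, ← map_mul, inv_mul_cancel₀ hcx, map_one, one_mul]
    rw [h1]
    exact mul_mem (IntermediateField.algebraMap_mem _ _) hxF
  have hYF : vIota A Y ∈ laurentBaseChange L F₀ := by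
    have h1 : vIota A Y = algebraMap L (LaurentSeries L) cy⁻¹ * y := by
      rw [hyY, ← mul_assoc, ← map_mul, inv_mul_cancel₀ hcy, map_one, one_mul]
    rw [h1]
    exact mul_mem (IntermediateField.algebraMap_mem _ _) hyF
  refine ⟨cy⁻¹ * cx, X, Y, mul_ne_zero (inv_ne_zero hcy) hcx, hXF, hYF, hX, hY, ?_⟩
  have h2 : f * vIota A Y = algebraMap L (LaurentSeries L) cy⁻¹ * (f * y) := by
    rw [hyY, ← mul_assoc, mul_comm (algebraMap L (LaurentSeries L) cy⁻¹) f, mul_assoc f,
      ← mul_assoc (algebraMap L (LaurentSeries L) cy⁻¹), ← map_mul, inv_mul_cancel₀ hcy,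
      map_one, one_mul]
  rw [h2, h, hxX, ← mul_assoc, ← map_mul]

/-- **Gauss normal form** in the exact shape of `Fermat.Agent.H29.ES1`, for every level field
generated by integral series. -/
theorem gaussNormalFormGen {F₀ : IntermediateField ℚ (LaurentSeries ℚ)} (hF : IntGenerated F₀) :
    GaussNormalFormGenStatement F₀ := by
  intro A ℓ _ _ f hf0
  have hf0' : (f : LaurentSeries (AlgebraicClosure ℚ)) ≠ 0 := fun h => hf0 (Subtype.ext h)
  obtain ⟨c, a, b, hc, ha, hb, hra, hrb, h⟩ := exists_gnfGen hF A f.2 hf0'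
  exact ⟨c, a, b, ha, hb, hc, hra, hrb, Subtype.ext h⟩

/-! ### The instances -/

theorem divisorExpansions_integral (N : ℕ) [NeZero N] :
    ∀ x ∈ divisorExpansions N, ∃ a : LaurentSeries ℤ, coeffMap (Int.castRingHom ℚ) a = x := by
  rintro _ ⟨d, hd, -, rfl⟩
  have := hd
  refine ⟨qExpand ℤ d (jqModC ℤ), ?_⟩
  rw [coeffMap_qExpand, coeffMap_jqModC, jqModC_rat]

/-- The integral model of `v_a`. -/
def vGenInt (M : ℕ) (a : ZMod M) : LaurentSeries ℤ :=
  HahnSeries.single (-1 : ℤ) (1 : ℤ) * HahnSeries.ofPowerSeries ℤ ℤ (vNum M a)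

theorem coeffMap_vGenInt (M : ℕ) (a : ZMod M) :
    coeffMap (Int.castRingHom ℚ) (vGenInt M a) = vGen M a := by
  rw [vGenInt, vGen, map_mul, coeffMap_single, coeffMap_ofPowerSeries, map_one]

theorem vGenSet_integral (M : ℕ) :
    ∀ x ∈ vGenSet M, ∃ a : LaurentSeries ℤ, coeffMap (Int.castRingHom ℚ) a = x := by
  rintro _ ⟨a, rfl⟩
  exact ⟨vGenInt M (a : ZMod M), coeffMap_vGenInt M _⟩

theorem intGenerated_full (N : ℕ) [NeZero N] : IntGenerated (modularFunctionFieldFull N) :=
  ⟨divisorExpansions N, rfl, divisorExpansions_integral N⟩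

theorem intGenerated_F1 (M : ℕ) [NeZero M] : IntGenerated (F1 M) := by
  refine ⟨divisorExpansions M ∪ vGenSet M, rfl, ?_⟩
  rintro x (hx | hx)
  · exact divisorExpansions_integral M x hx
  · exact vGenSet_integral M x hx

/-- **ES1-GNF** (row 578): the Gauss normal form for `X₁(M)`; unconditional. -/
theorem gaussNormalForm1 : GaussNormalForm1Statement := fun M _ =>
  gaussNormalFormGen (intGenerated_F1 M)

end

end Fermat.Agent.H57.ES1
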